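import Mathlib

/-!
# PROGRAMME I, block D-Pet, node ALG-1 (helper9): commuting self-adjoint operators

Mathlib only.  `V` a complex vector space with a biadditive form `ip : V → V → ℂ` which is
definite (`ip f f = 0 → f = 0`); no sesquilinearity, positivity or finite-dimensionality is used.
`G` a set of pairwise commuting endomorphisms which are self-adjoint for `ip`.  Then every element
of the `ℤ`-algebra generated by `G` is self-adjoint (`isSelfAdj_of_mem_adjoin`), and a nilpotent
element of it is zero (`eq_zero_of_isNilpotent_of_mem_adjoin`).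
-/

set_option autoImplicit false
set_option linter.unusedSectionVars false

namespace Fermat.Agent.FF3.PetAlg

section

variable {V : Type*} [AddCommGroup V] [Module ℂ V] (ip : V → V → ℂ)

/-- `a` is self-adjoint for the form `ip` -/
def IsSelfAdj (a : Module.End ℂ V) : Prop := ∀ f g : V, ip (a f) g = ip f (a g)

variable {ip}

theorem IsSelfAdj.mul_of_commute {a b : Module.End ℂ V} (ha : IsSelfAdj ip a)
    (hb : IsSelfAdj ip b) (hab : Commute a b) : IsSelfAdj ip (a * b) := by
  intro f g
  rw [Module.End.mul_apply, ha, hb, ← Module.End.mul_apply, ← hab.eq, Module.End.mul_apply]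

theorem IsSelfAdj.pow {a : Module.End ℂ V} (ha : IsSelfAdj ip a) (n : ℕ) :
    IsSelfAdj ip (a ^ n) := by
  induction n with
  | zero => intro f g; simp
  | succ n ih =>
    rw [pow_succ]
    exact ih.mul_of_commute ha ((Commute.refl a).pow_left n)

variable (hl : ∀ f g h : V, ip (f + g) h = ip f h + ip g h)
  (hr : ∀ f g h : V, ip f (g + h) = ip f g + ip f h)

include hl in
theorem ip_zero_left (g : V) : ip 0 g = 0 := by
  have := hl 0 0 g
  rw [add_zero] at this
  exact left_eq_add.mp this

include hr in
theorem ip_zero_right (f : V) : ip f 0 = 0 := by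
  have := hr f 0 0
  rw [add_zero] at this
  exact left_eq_add.mp this

include hl in
theorem ip_neg_left (f g : V) : ip (-f) g = -ip f g := by
  have := hl (-f) f g
  rw [neg_add_cancel, ip_zero_left hl] at this
  exact eq_neg_of_add_eq_zero_left this.symm

include hr in
theorem ip_neg_right (f g : V) : ip f (-g) = -ip f g := by
  have := hr f (-g) g
  rw [neg_add_cancel, ip_zero_right hr] at this
  exact eq_neg_of_add_eq_zero_left this.symm

include hl hr in
theorem ip_zsmul (n : ℤ) (f g : V) : ip (n • f) g = ip f (n • g) := by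
  induction n using Int.induction_on with
  | zero => rw [zero_smul, zero_smul, ip_zero_left hl, ip_zero_right hr]
  | succ n ih => rw [add_smul, add_smul, one_smul, one_smul, hl, hr, ih]
  | pred n ih =>
    rw [sub_smul, sub_smul, one_smul, one_smul, sub_eq_add_neg, sub_eq_add_neg, hl, hr, ih,
      ip_neg_left hl, ip_neg_right hr]

include hl hr in
/-- the self-adjoint elements of a commutative subalgebra form a subalgebra: here in the form
needed, for the `ℤ`-algebra generated by a commuting family of self-adjoint operators -/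
theorem isSelfAdj_of_mem_adjoin {G : Set (Module.End ℂ V)}
    (hcomm : ∀ a ∈ G, ∀ b ∈ G, Commute a b) (hsa : ∀ a ∈ G, IsSelfAdj ip a)
    {x : Module.End ℂ V} (hx : x ∈ Algebra.adjoin ℤ G) : IsSelfAdj ip x := by
  -- all elements of the adjoin commute
  have hc : ∀ a ∈ Algebra.adjoin ℤ G, ∀ b ∈ Algebra.adjoin ℤ G, Commute a b := by
    have := Algebra.isMulCommutative_adjoin ℤ hcomm
    intro a ha b hb
    have := mul_comm' (⟨a, ha⟩ : Algebra.adjoin ℤ G) ⟨b, hb⟩
    exact congrArg Subtype.val this
  refine Algebra.adjoin_induction (p := fun x _ => IsSelfAdj ip x) (fun a ha => hsa a ha)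
    (fun n f g => ?_) (fun a b _ _ ha hb f g => ?_) (fun a b ha' hb' ha hb => ?_) hx
  · -- integers
    show ip ((algebraMap ℤ (Module.End ℂ V) n) f) g = ip f ((algebraMap ℤ (Module.End ℂ V) n) g)
    have h1 : ∀ v : V, (algebraMap ℤ (Module.End ℂ V) n) v = n • v := fun v => by
      rw [Algebra.algebraMap_eq_smul_one, LinearMap.smul_apply, Module.End.one_apply]
    rw [h1, h1]
    exact ip_zsmul hl hr n f g
  · rw [LinearMap.add_apply, LinearMap.add_apply, hl, hr, ha, hb]
  · exact ha.mul_of_commute hb (hc a ha' b hb')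

include hl hr in
/-- **(ALG-1)** a nilpotent element of the `ℤ`-algebra generated by commuting self-adjoint
operators for a definite biadditive form is zero. -/
theorem eq_zero_of_isNilpotent_of_mem_adjoin (hdef : ∀ f : V, ip f f = 0 → f = 0)
    {G : Set (Module.End ℂ V)} (hcomm : ∀ a ∈ G, ∀ b ∈ G, Commute a b)
    (hsa : ∀ a ∈ G, ∀ f g : V, ip (a f) g = ip f (a g))
    {x : Module.End ℂ V} (hx : x ∈ Algebra.adjoin ℤ G) (hn : IsNilpotent x) : x = 0 := by
  have hxs : IsSelfAdj ip x := isSelfAdj_of_mem_adjoin hl hr hcomm hsa hx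
  -- `x ^ (2 * k) = 0 → x ^ k = 0`
  have step : ∀ k : ℕ, x ^ (2 * k) = 0 → x ^ k = 0 := by
    intro k hk
    ext f
    refine hdef _ ?_
    have h1 := (hxs.pow k) f ((x ^ k) f)
    rw [← Module.End.mul_apply, ← pow_add, ← two_mul, hk] at h1
    rw [h1, LinearMap.zero_apply]
    exact ip_zero_right hr _
  have desc : ∀ j : ℕ, x ^ (2 ^ j) = 0 → x = 0 := by
    intro j
    induction j with
    | zero => intro h; simpa using h
    | succ j ih =>
      intro h
      rw [pow_succ, mul_comm] at h
      exact ih (step _ h)
  obtain ⟨k, hk⟩ := hn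
  refine desc k ?_
  have hle : k ≤ 2 ^ k := Nat.lt_two_pow_self.le
  rw [← Nat.sub_add_cancel hle, pow_add, hk, mul_zero]

end

end Fermat.Agent.FF3.PetAlg
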