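import Fermat.Prelude.Def_CuspForm_HeckeAlgebra
import Fermat.Agent.FF3.PetAlg.SelfAdjoint

/-!
# PROGRAMME I, block D-Pet, node ALG-2 (helper9): the anemic Hecke algebra is reduced

`PeterssonData N` is the single interface which the analytic nodes of D-Pet have to instantiate:
a biadditive definite form on `S₂(Γ₀(N))` for which the Hecke operators `T_ℓ`, `ℓ ∤ N`, are
self-adjoint.  From it: `isReduced_heckeAlgebra` — if `S` contains the primes dividing `N` (so that
no `U_q` is among the generators) then `CuspForm.heckeAlgebra N 2 S` is reduced.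
-/

set_option autoImplicit false

namespace Fermat.Agent.FF3.PetAlg

open CuspForm

/-- **The interface of the analytic part of D-Pet**: a biadditive definite form on the weight two
cusp forms of level `Γ₀(N)` for which every `T_ℓ`, `ℓ ∤ N`, is self-adjoint (the Petersson
product). -/
structure PeterssonData (N : ℕ) [NeZero N] where
  /-- the form -/
  ip : CuspForm (CongruenceSubgroup.Gamma0 N) 2 → CuspForm (CongruenceSubgroup.Gamma0 N) 2 → ℂ
  add_left : ∀ f g h, ip (f + g) h = ip f h + ip g h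
  add_right : ∀ f g h, ip f (g + h) = ip f g + ip f h
  definite : ∀ f, ip f f = 0 → f = 0
  heckeT_adjoint : ∀ (ℓ : ℕ) (hℓ : ℓ.Prime) (hℓN : ¬ ℓ ∣ N)
    (f g : CuspForm (CongruenceSubgroup.Gamma0 N) 2),
    ip (heckeTLin 2 hℓ hℓN f) g = ip f (heckeTLin 2 hℓ hℓN g)

variable {N : ℕ} [NeZero N]

/-- a nilpotent element of the anemic Hecke algebra is zero -/
theorem eq_zero_of_isNilpotent_of_mem_heckeAlgebra (P : PeterssonData N) {S : Set ℕ}
    (hNS : ∀ q : ℕ, q.Prime → q ∣ N → q ∈ S)
    {x : Module.End ℂ (CuspForm (CongruenceSubgroup.Gamma0 N) 2)}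
    (hx : x ∈ heckeAlgebra N 2 S) (hn : IsNilpotent x) : x = 0 := by
  refine eq_zero_of_isNilpotent_of_mem_adjoin (ip := P.ip) P.add_left P.add_right P.definite
    (G := heckeGenerators N 2 S)
    (fun a ha b hb => commute_of_mem_heckeGenerators ha hb) ?_ hx hn
  rintro a (⟨ℓ, hℓ, hℓN, -, rfl⟩ | ⟨q, hqN, hq, hqS, rfl⟩) f g
  · exact P.heckeT_adjoint ℓ hℓ hℓN f g
  · exact absurd (hNS q hq hqN) hqS

/-- **(ALG-2)** the anemic Hecke algebra of weight two is reduced. -/
theorem isReduced_heckeAlgebra (P : PeterssonData N) {S : Set ℕ}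
    (hNS : ∀ q : ℕ, q.Prime → q ∣ N → q ∈ S) : IsReduced (heckeAlgebra N 2 S) := by
  refine ⟨fun x hx => ?_⟩
  apply Subtype.ext
  refine eq_zero_of_isNilpotent_of_mem_heckeAlgebra P hNS x.2 ?_
  obtain ⟨k, hk⟩ := hx
  exact ⟨k, by
    have := congrArg Subtype.val hk
    simpa using this⟩

end Fermat.Agent.FF3.PetAlg
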