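import Fermat.Agent.FF3.PetAlg.Annihilator

/-!
# PROGRAMME I, block D-Pet, node ALG-3 (helper9): reducedness passes to finite free quotients

Mathlib only.  `A` a reduced commutative ring, integral over `ℤ`; `𝒪` a domain of characteristic
zero; `T` an `𝒪`-algebra, finite and free as an `𝒪`-module, generated over `𝒪` by the image of a
ring homomorphism `π : A →+* T`.  Then `T` is reduced (`isReduced_of_adjoin_range_eq_top`).

Proof without étale algebras: the left multiplication matrices give an injective ring
homomorphism `Λ : T → End_K (K ^ n)`, `K = Frac 𝒪`; every `π t` is killed by a polynomial which is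
separable over `K`, so `Λ (π t)` is a semisimple endomorphism; sums and products of commuting
semisimple endomorphisms over a perfect field are semisimple; a nilpotent semisimple endomorphism
is zero.
-/

set_option autoImplicit false
set_option linter.unusedSectionVars false

namespace Fermat.Agent.FF3.PetAlg

open Polynomial

section

variable {𝒪 T : Type*} [CommRing 𝒪] [IsDomain 𝒪] [CommRing T] [Algebra 𝒪 T]
  [Module.Finite 𝒪 T] [Module.Free 𝒪 T]

/-- the left regular representation over the fraction field, as an `𝒪`-algebra homomorphism -/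
noncomputable def leftMulEnd :
    T →ₐ[𝒪] Module.End (FractionRing 𝒪) (Module.Free.ChooseBasisIndex 𝒪 T → FractionRing 𝒪) :=
  letI := Classical.decEq (Module.Free.ChooseBasisIndex 𝒪 T)
  ((Matrix.toLinAlgEquiv' :
      Matrix (Module.Free.ChooseBasisIndex 𝒪 T) (Module.Free.ChooseBasisIndex 𝒪 T)
        (FractionRing 𝒪) ≃ₐ[FractionRing 𝒪] _).restrictScalars 𝒪 : _ →ₐ[𝒪] _).comp
    ((AlgHom.mapMatrix (IsScalarTower.toAlgHom 𝒪 𝒪 (FractionRing 𝒪))).comp
      (Algebra.leftMulMatrix (Module.Free.chooseBasis 𝒪 T)))

theorem leftMulEnd_injective : Function.Injective (leftMulEnd (𝒪 := 𝒪) (T := T)) := by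
  classical
  unfold leftMulEnd
  simp only [AlgHom.coe_comp]
  refine Function.Injective.comp ?_ (Function.Injective.comp ?_ ?_)
  · exact (Matrix.toLinAlgEquiv' (R := FractionRing 𝒪)
      (n := Module.Free.ChooseBasisIndex 𝒪 T)).injective
  · intro M M' h
    ext i j
    have := congrFun (congrFun h i) j
    exact IsFractionRing.injective 𝒪 (FractionRing 𝒪) this
  · exact Algebra.leftMulMatrix_injective _

end

/-- **(ALG-3)** reducedness passes from `A` to a finite free `𝒪`-algebra generated by the image of
`A`, in characteristic zero. -/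
theorem isReduced_of_adjoin_range_eq_top {A 𝒪 T : Type*} [CommRing A] [IsReduced A]
    [Algebra.IsIntegral ℤ A] [CommRing 𝒪] [IsDomain 𝒪] [CharZero 𝒪] [CommRing T] [Algebra 𝒪 T]
    [Module.Finite 𝒪 T] [Module.Free 𝒪 T] (π : A →+* T)
    (h : Algebra.adjoin 𝒪 (Set.range π) = ⊤) : IsReduced T := by
  classical
  let K := FractionRing 𝒪
  have : CharZero K := charZero_of_injective_algebraMap (IsFractionRing.injective 𝒪 K)
  let Λ := leftMulEnd (𝒪 := 𝒪) (T := T)
  -- every element acts semisimply
  have hss : ∀ y : T, (Λ y).IsSemisimple := by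
    intro y
    have hy : y ∈ Algebra.adjoin 𝒪 (Set.range π) := by rw [h]; trivial
    refine Algebra.adjoin_induction (p := fun y _ => (Λ y).IsSemisimple) ?_ ?_ ?_ ?_ hy
    · -- generators
      rintro _ ⟨t, rfl⟩
      have hint : ∃ q : ℤ[X], q ≠ 0 ∧ aeval t q = 0 := by
        obtain ⟨q, hqm, hq⟩ := Algebra.IsIntegral.isIntegral (R := ℤ) t
        exact ⟨q, hqm.ne_zero, by rwa [aeval_def]⟩
      obtain ⟨q, hq, hsep⟩ := exists_separable_annihilator t hint K
      refine Module.End.isSemisimple_of_squarefree_aeval_eq_zero hsep.squarefree ?_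
      let Λr : T →+* Module.End K (Module.Free.ChooseBasisIndex 𝒪 T → K) := Λ.toRingHom
      have hcomp : (algebraMap K (Module.End K (Module.Free.ChooseBasisIndex 𝒪 T → K))).comp
          (Int.castRingHom K) = (Λr.comp π).comp (Int.castRingHom A) :=
        RingHom.ext_int _ _
      have hq' : eval₂ (Int.castRingHom A) t q = 0 := by
        rw [← hq, aeval_def, algebraMap_int_eq]
      have h2 := hom_eval₂ q (Int.castRingHom A) (Λr.comp π) t
      rw [hq', map_zero] at h2
      rw [aeval_def, eval₂_map, hcomp]
      exact h2.symm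
    · -- scalars
      intro c
      rw [AlgHom.commutes, Algebra.algebraMap_eq_smul_one,
        ← algebraMap_smul K c (1 : Module.End K (Module.Free.ChooseBasisIndex 𝒪 T → K))]
      exact Module.End.IsSemisimple_smul _ Module.End.isSemisimple_id
    · intro a b _ _ ha hb
      rw [map_add]
      exact Module.End.IsSemisimple.add_of_commute
        (by rw [Commute, SemiconjBy, ← map_mul, ← map_mul, mul_comm]) ha hb
    · intro a b _ _ ha hb
      rw [map_mul]
      exact Module.End.IsSemisimple.mul_of_commute
        (by rw [Commute, SemiconjBy, ← map_mul, ← map_mul, mul_comm]) ha hb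
  refine ⟨fun y hy => ?_⟩
  have h0 : Λ y = 0 :=
    Module.End.eq_zero_of_isNilpotent_isSemisimple (hy.map Λ) (hss y)
  exact leftMulEnd_injective (by rw [h0, map_zero])

end Fermat.Agent.FF3.PetAlg
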