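import Fermat.Prelude.Def_CuspForm_HeckeGaloisRepDatum
import Fermat.Agent.S22
import Fermat.Agent.FF3.PetAlg.Reduced
import Fermat.Agent.FF3.PetAlg.Transfer

/-!
# PROGRAMME I, block D-Pet, node ALG-4 (helper9): the Hecke ring of a datum is reduced

`isReduced_of_datum` : given the Petersson interface `PeterssonData N`, a set `S` containing the
primes dividing `N`, and a `HeckeGaloisRepDatum N S 𝒪 θ T` over a coefficient ring of
characteristic zero, the local Hecke ring `T` is reduced.  Ingredients: (ALG-2) the anemic Hecke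
algebra is reduced; S22 on main (it is a finite `ℤ`-module); (ALG-3) transfer to `T`, which is
finite free over `𝒪` and generated by the image of the Hecke algebra.
-/

set_option autoImplicit false

namespace Fermat.Agent.FF3.PetAlg

open CuspForm

/-- **(ALG-4)** the Hecke ring `T` of a datum is reduced. -/
theorem isReduced_of_datum {N : ℕ} [NeZero N] (P : PeterssonData N) {S : Set ℕ}
    (hNS : ∀ q : ℕ, q.Prime → q ∣ N → q ∈ S)
    {𝒪 : Type} [CommRing 𝒪] [IsDomain 𝒪] [IsDiscreteValuationRing 𝒪]
    [IsAdicComplete (IsLocalRing.maximalIdeal 𝒪) 𝒪] [CharZero 𝒪]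
    {θ : heckeAlgebra N 2 S →+* IsLocalRing.ResidueField 𝒪}
    {T : Type} [CommRing T] [IsLocalRing T] [IsNoetherianRing T]
    [IsAdicComplete (IsLocalRing.maximalIdeal T) T] [Algebra 𝒪 T] [IsLocalHom (algebraMap 𝒪 T)]
    [Module.Finite 𝒪 T] [Module.Free 𝒪 T]
    (H : HeckeGaloisRepDatum N S 𝒪 θ T) : IsReduced T := by
  have h1 : IsReduced (heckeAlgebra N 2 S) := isReduced_heckeAlgebra P hNS
  have h2 : Module.Finite ℤ (heckeAlgebra N 2 S) := Fermat.Agent.S22.result N 2 S
  exact isReduced_of_adjoin_range_eq_top H.π H.adjoin_range_π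

end Fermat.Agent.FF3.PetAlg
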