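import Mathlib

/-!
# PROGRAMME I, block D-Pet, node ALG-3a (helper9): squarefree annihilating polynomials

Mathlib only.  In a reduced commutative ring, an element which is algebraic over `ℤ` is
annihilated by a nonzero integer polynomial which is squarefree over `ℚ`
(`exists_squarefree_annihilator`: take an annihilator of minimal degree), hence separable over
every field of characteristic zero (`exists_separable_annihilator`).
-/

set_option autoImplicit false

namespace Fermat.Agent.FF3.PetAlg

open Polynomial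

/-- clearing denominators of a rational polynomial -/
theorem exists_int_polynomial_smul (r : ℚ[X]) :
    ∃ (a : ℤ) (r₀ : ℤ[X]), a ≠ 0 ∧ r₀.map (Int.castRingHom ℚ) = (a : ℚ) • r := by
  obtain ⟨b, hb, h⟩ := IsLocalization.integerNormalization_spec (nonZeroDivisors ℤ) r
  refine ⟨b, IsLocalization.integerNormalization (nonZeroDivisors ℤ) r,
    nonZeroDivisors.ne_zero hb, ?_⟩
  have e : algebraMap ℤ ℚ = Int.castRingHom ℚ := rfl
  rw [e] at h
  rw [h]
  ext i
  simp [Polynomial.coeff_smul]

/-- **a squarefree annihilator**: in a reduced ring, an element algebraic over `ℤ` is killed by a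
nonzero integer polynomial which is squarefree over `ℚ`. -/
theorem exists_squarefree_annihilator {A : Type*} [CommRing A] [IsReduced A] (t : A)
    (ht : ∃ q : ℤ[X], q ≠ 0 ∧ aeval t q = 0) :
    ∃ q : ℤ[X], q ≠ 0 ∧ aeval t q = 0 ∧ Squarefree (q.map (Int.castRingHom ℚ)) := by
  classical
  -- an annihilator of minimal degree
  have hex : ∃ n : ℕ, ∃ q : ℤ[X], q ≠ 0 ∧ aeval t q = 0 ∧ q.natDegree = n := by
    obtain ⟨q, hq0, hq⟩ := ht
    exact ⟨_, q, hq0, hq, rfl⟩
  obtain ⟨q, hq0, hq, hqn⟩ := Nat.find_spec hex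
  have hmin : ∀ g : ℤ[X], g ≠ 0 → aeval t g = 0 → q.natDegree ≤ g.natDegree := by
    intro g hg0 hg
    rw [hqn]
    exact Nat.find_min' hex ⟨g, hg0, hg, rfl⟩
  have hinj : Function.Injective (Int.castRingHom ℚ) := Int.cast_injective
  have hmapq0 : q.map (Int.castRingHom ℚ) ≠ 0 := (Polynomial.map_ne_zero_iff hinj).mpr hq0
  refine ⟨q, hq0, hq, fun r hr => ?_⟩
  obtain ⟨s, hs⟩ := hr
  have hr0 : r ≠ 0 := by
    rintro rfl
    rw [zero_mul, zero_mul] at hs
    exact hmapq0 hs
  have hs0 : s ≠ 0 := by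
    rintro rfl
    rw [mul_zero] at hs
    exact hmapq0 hs
  by_contra hunit
  have hdeg : 0 < r.natDegree := by
    rw [Nat.pos_iff_ne_zero]
    intro h0
    exact hunit (Polynomial.isUnit_iff.mpr ⟨r.coeff 0, by
      rw [isUnit_iff_ne_zero]
      intro hc
      apply hr0
      rw [Polynomial.eq_C_of_natDegree_eq_zero h0, hc, C_0], 
      (Polynomial.eq_C_of_natDegree_eq_zero h0).symm⟩)
  obtain ⟨a, r₀, ha, hr₀⟩ := exists_int_polynomial_smul r
  obtain ⟨b, s₀, hb, hs₀⟩ := exists_int_polynomial_smul s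
  have haQ : (a : ℚ) ≠ 0 := Int.cast_ne_zero.mpr ha
  have hbQ : (b : ℚ) ≠ 0 := Int.cast_ne_zero.mpr hb
  -- `r₀ * r₀ * s₀ = (a * a * b) • q`
  have key : r₀ * r₀ * s₀ = C (a * a * b) * q := by
    apply Polynomial.map_injective _ hinj
    rw [Polynomial.map_mul, Polynomial.map_mul, Polynomial.map_mul, hr₀, hs₀, hs, Polynomial.map_C]
    simp only [smul_eq_C_mul, eq_intCast, Int.cast_mul, C_mul]
    ring
  -- the smaller annihilator
  have hg0 : r₀ * s₀ ≠ 0 := by
    apply mul_ne_zero
    · intro h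
      rw [h, Polynomial.map_zero] at hr₀
      exact smul_ne_zero haQ hr0 hr₀.symm
    · intro h
      rw [h, Polynomial.map_zero] at hs₀
      exact smul_ne_zero hbQ hs0 hs₀.symm
  have hg : aeval t (r₀ * s₀) = 0 := by
    refine IsNilpotent.eq_zero ⟨2, ?_⟩
    have : (r₀ * s₀) ^ 2 = (r₀ * r₀ * s₀) * s₀ := by ring
    rw [← map_pow, this, key, map_mul, map_mul, hq, mul_zero, zero_mul]
  have hle := hmin _ hg0 hg
  -- degrees
  have h1 : (r₀ * s₀).natDegree = r.natDegree + s.natDegree := by
    rw [← Polynomial.natDegree_map_eq_of_injective hinj (r₀ * s₀), Polynomial.map_mul, hr₀, hs₀,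
      Polynomial.natDegree_mul (smul_ne_zero haQ hr0) (smul_ne_zero hbQ hs0),
      Polynomial.natDegree_smul _ haQ, Polynomial.natDegree_smul _ hbQ]
  have h2 : q.natDegree = r.natDegree + r.natDegree + s.natDegree := by
    rw [← Polynomial.natDegree_map_eq_of_injective hinj q, hs,
      Polynomial.natDegree_mul (mul_ne_zero hr0 hr0) hs0, Polynomial.natDegree_mul hr0 hr0]
  omega

/-- **a separable annihilator** over every field of characteristic zero. -/
theorem exists_separable_annihilator {A : Type*} [CommRing A] [IsReduced A] (t : A)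
    (ht : ∃ q : ℤ[X], q ≠ 0 ∧ aeval t q = 0) (K : Type*) [Field K] [CharZero K] :
    ∃ q : ℤ[X], aeval t q = 0 ∧ (q.map (Int.castRingHom K)).Separable := by
  obtain ⟨q, -, hq, hsq⟩ := exists_squarefree_annihilator t ht
  refine ⟨q, hq, ?_⟩
  have h1 : (q.map (Int.castRingHom ℚ)).Separable :=
    PerfectField.separable_iff_squarefree.mpr hsq
  have h2 := h1.map (f := algebraMap ℚ K)
  rwa [Polynomial.map_map, (RingHom.ext_int ((algebraMap ℚ K).comp (Int.castRingHom ℚ))
    (Int.castRingHom K))] at h2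

end Fermat.Agent.FF3.PetAlg
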